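import Fermat.Agent.CubicFieldsBound.Resolvent
import Fermat.Agent.BrumerSilverman.Curves
import Fermat.Agent.ThreeTorsionBound.Descent

/-!
# Cubic fields ramified in a finite set of primes

The descent elements of the cubic fields with `-3 d` in one square class are admissible outside the
primes of `6` and of `d`, so they are bounded by the three-torsion of the quadratic field.
-/

set_option autoImplicit false
set_option linter.style.haveILetI false

noncomputable section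

open NumberField IsDedekindDomain Module Finset
open FA.MordellAverage FA.BrumerSilverman
open scoped Classical

namespace FA.CubicFieldsBound

variable {S : Finset ℕ}

theorem prime_of_mem_withSix (hS : ∀ p ∈ S, p.Prime) {p : ℕ} (hp : p ∈ withSix S) : p.Prime := by
  rcases mem_union.mp hp with h | h
  · exact hS p h
  · rcases mem_insert.mp h with rfl | h
    · exact Nat.prime_two
    · rw [mem_singleton.mp h]; exact Nat.prime_three

theorem dvd_six_mul (S : Finset ℕ) {p : ℕ} (hp : p ∈ withSix S) :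
    (p : ℤ) ∣ 6 * ∏ q ∈ S, (q : ℤ) := by
  rcases mem_union.mp hp with h | h
  · exact (dvd_prod_of_mem _ h).mul_left 6
  · refine Dvd.dvd.mul_right ?_ _
    rcases mem_insert.mp h with rfl | h
    · exact ⟨3, by norm_num⟩
    · rw [mem_singleton.mp h]; exact ⟨2, by norm_num⟩

theorem supportPrimes_subset {k : ℤ} (hk : k ≠ 0)
    (h : ∀ p : ℕ, p.Prime → (p : ℤ) ∣ k → p ∈ withSix S) : supportPrimes k ⊆ withSix S := by
  intro q hq
  have hqp := Nat.prime_of_mem_primeFactors hq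
  rcases (Nat.prime_iff_prime_int.1 hqp).dvd_mul.mp ((mem_supportPrimes hk hqp).mp hq) with h' | h'
  · have h6 : q ∣ 2 * 3 := by exact_mod_cast h'
    rcases hqp.dvd_mul.mp h6 with h6 | h6
    · simp [(Nat.prime_dvd_prime_iff_eq hqp Nat.prime_two).mp h6]
    · simp [(Nat.prime_dvd_prime_iff_eq hqp Nat.prime_three).mp h6]
  · exact h q hqp h'

theorem supportProd_le_six (hS : ∀ p ∈ S, p.Prime) {k : ℤ} (hk : k ≠ 0)
    (h : ∀ p : ℕ, p.Prime → (p : ℤ) ∣ k → p ∈ withSix S) :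
    supportProd k ≤ 6 * ∏ p ∈ S, p := by
  refine (prod_le_prod_of_subset_of_one_le (supportPrimes_subset hk h)
    (fun _ _ => Nat.zero_le _) fun p hp _ => (prime_of_mem_withSix hS hp).one_le).trans ?_
  have e : (∏ p ∈ withSix S, p) * ∏ p ∈ S ∩ {2, 3}, p = (∏ p ∈ S, p) * 6 := by
    rw [withSix, prod_union_inter]
    simp
  rw [mul_comm, ← e]
  exact Nat.le_mul_of_pos_right _
    (prod_pos fun p hp => (hS p (mem_inter.mp hp).1).pos)

variable {K : Type} [Field K] [NumberField K]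

omit [NumberField K] in
theorem exists_prime_mem (v : HeightOneSpectrum (𝓞 K)) {n : ℤ} (hn : n ≠ 0)
    (h : (n : 𝓞 K) ∈ v.asIdeal) :
    ∃ p : ℕ, p.Prime ∧ (p : ℤ) ∣ n ∧ (p : 𝓞 K) ∈ v.asIdeal := by
  have h' : ((n.natAbs : ℕ) : 𝓞 K) ∈ v.asIdeal := by
    rw [← Int.cast_natCast (R := 𝓞 K)]
    rcases Int.natAbs_eq n with e | e <;> rw [e] at h
    · exact h
    · rw [Int.cast_neg] at h
      exact v.asIdeal.neg_mem_iff.mp h
  rw [← Nat.prod_primeFactorsList (Int.natAbs_ne_zero.mpr hn), ← Multiset.prod_coe,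
    ← eq_natCast (algebraMap ℕ (𝓞 K)), map_multiset_prod] at h'
  obtain ⟨x, hx, hxv⟩ := (v.isPrime.multiset_prod_mem_iff_exists_mem _).mp h'
  obtain ⟨p, hp, rfl⟩ := Multiset.mem_map.mp hx
  exact ⟨p, Nat.prime_of_mem_primeFactorsList hp,
    Int.natCast_dvd.mpr (Nat.dvd_of_mem_primeFactorsList hp), by simpa using hxv⟩

omit [NumberField K] in
theorem natCast_not_mem (v : HeightOneSpectrum (𝓞 K))
    (hv : ((6 * ∏ q ∈ S, (q : ℤ) : ℤ) : 𝓞 K) ∉ v.asIdeal) {p : ℕ} (hp : p ∈ withSix S) :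
    (p : 𝓞 K) ∉ v.asIdeal := by
  intro h
  obtain ⟨r, hr⟩ := dvd_six_mul S hp
  refine hv ?_
  rw [hr, Int.cast_mul, Int.cast_natCast]
  exact v.asIdeal.mul_mem_right _ h

/-- **The descent element is admissible.** -/
theorem admissible_val {L : Type} [Field L] [NumberField L] {m : ℤ}
    (R : Resolvent L (withSix S) m) {σ : 𝓞 K} (hσ : σ ^ 2 = (m : 𝓞 K))
    {T : Finset (HeightOneSpectrum (𝓞 K))}
    (hT : ∀ v ∉ T, ((6 * ∏ q ∈ S, (q : ℤ) : ℤ) : 𝓞 K) ∉ v.asIdeal) :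
    Admissible T (4 * (R.T : 𝓞 K) + 12 * ((R.g : 𝓞 K) * R.a) * σ) := by
  set Z := 4 * (R.T : 𝓞 K) + 12 * ((R.g : 𝓞 K) * R.a) * σ
  set Z' := 4 * (R.T : 𝓞 K) - 12 * ((R.g : 𝓞 K) * R.a) * σ
  have e : Z * Z' = (4 * (R.h : 𝓞 K)) ^ 3 := by
    have := congrArg (Int.cast : ℤ → 𝓞 K) R.norm_eq
    push_cast at this
    simp only [Z, Z']
    linear_combination 16 * this - 144 * ((R.g : 𝓞 K) * R.a) ^ 2 * hσ
  have hX : 4 * (R.h : 𝓞 K) ≠ 0 := mul_ne_zero (by norm_num) (Int.cast_ne_zero.mpr R.hh)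
  have hne : Z * Z' ≠ 0 := e ▸ pow_ne_zero 3 hX
  refine ⟨left_ne_zero_of_mul hne, fun v hv => ?_⟩
  by_cases hz : expo v Z = 0
  · rw [hz]; exact dvd_zero 3
  have hsum := congrArg (expo v) e
  rw [expo_mul v (left_ne_zero_of_mul hne) (right_ne_zero_of_mul hne), pow_succ, pow_succ, pow_one,
    expo_mul v (mul_ne_zero hX hX) hX, expo_mul v hX hX] at hsum
  have hZ' : expo v Z' = 0 := by
    by_contra h'
    have m1 := (expo_ne_zero_iff v (left_ne_zero_of_mul hne)).mp hz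
    have m2 := (expo_ne_zero_iff v (right_ne_zero_of_mul hne)).mp h'
    have hv6 := hT v hv
    have h2 : (2 : 𝓞 K) ∉ v.asIdeal := by
      simpa using natCast_not_mem v hv6 (show 2 ∈ withSix S by simp)
    have h3 : (3 : 𝓞 K) ∉ v.asIdeal := by
      simpa using natCast_not_mem v hv6 (show 3 ∈ withSix S by simp)
    have hint : ∀ n : ℤ, n ≠ 0 → (∀ p : ℕ, p.Prime → (p : ℤ) ∣ n → p ∈ withSix S) →
        (n : 𝓞 K) ∉ v.asIdeal := fun n hn h hmem => by
      obtain ⟨p, hp, hpn, hpv⟩ := exists_prime_mem v hn hmem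
      exact natCast_not_mem v hv6 (h p hp hpn) hpv
    have mh : (R.h : 𝓞 K) ∈ v.asIdeal := by
      have hm := v.isPrime.mem_of_pow_mem 3 (e ▸ v.asIdeal.mul_mem_right Z' m1)
      rw [show 4 * (R.h : 𝓞 K) = 2 * (2 * (R.h : 𝓞 K)) by ring] at hm
      exact (v.isPrime.mem_or_mem ((v.isPrime.mem_or_mem hm).resolve_left h2)).resolve_left h2
    have hd : (2 : 𝓞 K) * (2 * (2 * (3 * ((R.g : 𝓞 K) * ((R.a : 𝓞 K) * σ))))) ∈ v.asIdeal := by
      have := v.asIdeal.sub_mem m1 m2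
      rwa [show Z - Z' = 2 * (2 * (2 * (3 * ((R.g : 𝓞 K) * ((R.a : 𝓞 K) * σ))))) by
        simp only [Z, Z']; ring] at this
    have h' := fun {x : 𝓞 K} (hx : x ∉ v.asIdeal) {y : 𝓞 K} (hxy : x * y ∈ v.asIdeal) =>
      (v.isPrime.mem_or_mem hxy).resolve_left hx
    have hm' := hint m R.primes_m.1 R.primes_m.2
    have ma : (R.a : 𝓞 K) ∈ v.asIdeal := by
      rcases v.isPrime.mem_or_mem
        (h' (hint _ R.primes_g.1 R.primes_g.2) (h' h3 (h' h2 (h' h2 (h' h2 hd))))) with h | h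
      · exact h
      · exact absurd (hσ ▸ v.asIdeal.pow_mem_of_mem h 2 two_pos) hm'
    have hgcd : ((Int.gcd R.a R.h : ℤ) : 𝓞 K) ∈ v.asIdeal := by
      rw [Int.gcd_eq_gcd_ab, Int.cast_add, Int.cast_mul, Int.cast_mul]
      exact v.asIdeal.add_mem (v.asIdeal.mul_mem_right _ ma) (v.asIdeal.mul_mem_right _ mh)
    exact hint _ (Int.natCast_ne_zero.mpr (fun h0 => R.hh (Int.gcd_eq_zero_iff.mp h0).2))
      (fun p hp hpd => R.primes_gcd p hp (hpd.trans (Int.gcd_dvd_left _ _))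
        (hpd.trans (Int.gcd_dvd_right _ _))) hgcd
  rw [hZ', add_zero] at hsum
  omega

variable {ι : Type*} {L : ι → Type} [∀ i, Field (L i)] [∀ i, NumberField (L i)]

/-- **The fields of one square class against the three-torsion.** -/
theorem fields_le_of_lift (hS : ∀ p ∈ S, p.Prime) (hK : finrank ℚ K ≤ 2) {m : ℤ} (s : K)
    (hs : s ^ 2 = ((m : ℚ) : K)) (hlift : CubeLift (toField s hs))
    (R : ∀ i, Resolvent (L i) (withSix S) m) (h3 : ∀ i, finrank ℚ (L i) = 3)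
    (hne : ∀ i j, Nonempty (L i ≃+* L j) → i = j) :
    Finite ι ∧ Nat.card ι ≤
      9 * 81 ^ (S.card + 2) * Nat.card {c : ClassGroup (𝓞 K) // c ^ 3 = 1} := by
  set k : ℤ := ∏ q ∈ S, (q : ℤ) with hkdef
  have hk : k ≠ 0 := prod_ne_zero_iff.mpr fun p hp => Int.natCast_ne_zero.mpr (hS p hp).ne_zero
  obtain ⟨T, hTc, hT⟩ := exists_support (K := K) hK hk
  have hsub : supportPrimes k ⊆ withSix S := supportPrimes_subset hk fun p hp h => by
    obtain ⟨q, hq, hpq⟩ := (Prime.dvd_finsetProd_iff (Nat.prime_iff_prime_int.1 hp) _).mp h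
    rw [(Nat.prime_dvd_prime_iff_eq hp (hS q hq)).mp (Int.natCast_dvd_natCast.mp hpq)]
    exact mem_union_left _ hq
  have hTc' : T.card ≤ 4 * (S.card + 2) :=
    hTc.trans (Nat.mul_le_mul_left _ ((card_le_card hsub).trans (card_withSix_le S)))
  have hsm : s ^ 2 = (m : K) := by rw [hs]; simp
  have hsint : IsIntegral ℤ s :=
    IsIntegral.of_pow two_pos (hsm ▸ (isIntegral_algebraMap (R := ℤ) (x := m)))
  set σ : 𝓞 K := ⟨s, hsint⟩
  have hσ : σ ^ 2 = (m : 𝓞 K) := RingOfIntegers.ext (by simpa [σ] using hsm)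
  let z : ι → 𝓞 K := fun i =>
    4 * ((R i).T : 𝓞 K) + 12 * (((R i).g : 𝓞 K) * (R i).a) * σ
  have hz : ∀ i, (z i : K) = toField s hs (R i).val := fun i => by
    rw [toField_apply,
      show (R i).val.re = 4 * ((R i).T : ℚ) by simp [Resolvent.val],
      show (R i).val.im = 12 * (((R i).g : ℚ) * (R i).a) by simp [Resolvent.val]]
    push_cast
    simp [z, σ, map_ofNat]
  obtain ⟨hfin, hcard⟩ := card_classes_le_three T z (fun i => admissible_val (R i) hσ hT) (by
    rintro i j ⟨a, b, ha, hb, hab⟩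
    refine hne i j ?_
    have e : toField s hs (R i).val * (a : K) ^ 3 = toField s hs (R j).val * (b : K) ^ 3 := by
      rw [← hz, ← hz]
      exact_mod_cast congrArg (fun r : 𝓞 K => (r : K)) hab
    have ha' : (a : K) ≠ 0 := by exact_mod_cast ha
    have hb' : (b : K) ≠ 0 := by exact_mod_cast hb
    set C : SqAlg (m : ℚ) := ⟨(R j).val.re, -(R j).val.im⟩
    have hC : (R j).val * C = ratS (m : ℚ) ((4 * ((R j).h : ℚ)) ^ 3) := by
      rw [mul_conj, (R j).sqNorm_val]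
    have hh : (4 * ((R j).h : ℚ)) ≠ 0 := mul_ne_zero (by norm_num) (Int.cast_ne_zero.mpr (R j).hh)
    have hgC : toField s hs (R j).val * toField s hs C = (((4 * ((R j).h : ℚ)) : ℚ) : K) ^ 3 := by
      rw [← map_mul, hC]
      exact ((toField s hs).commutes _).trans (by simp)
    obtain ⟨w, hw⟩ := hlift ((R i).val * C)
      ⟨((4 * ((R j).h : ℚ) : ℚ) : K) * b / a,
        div_ne_zero (mul_ne_zero (Rat.cast_ne_zero.mpr hh) hb') ha', by
          rw [map_mul, div_pow, eq_div_iff (pow_ne_zero 3 ha'), mul_pow, ← hgC]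
          linear_combination toField s hs C * e⟩
      ⟨4 * ((R i).h : ℚ) * (4 * ((R j).h : ℚ)), by
        rw [sqNorm_mul, (R i).sqNorm_val, show sqNorm C = sqNorm (R j).val by simp [C, sqNorm],
          (R j).sqNorm_val]
        ring⟩
    refine nonempty_ringEquiv (R j) (R i) (h3 j) (h3 i)
      (w * ratS (m : ℚ) (4 * ((R j).h : ℚ))⁻¹) ?_
    rw [mul_pow, ← hw, ← map_pow, inv_pow]
    calc (R i).val = (R i).val * (ratS (m : ℚ) ((4 * ((R j).h : ℚ)) ^ 3) *
          ratS (m : ℚ) ((4 * ((R j).h : ℚ)) ^ 3)⁻¹) := by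
          rw [← map_mul, mul_inv_cancel₀ (pow_ne_zero 3 hh), map_one, mul_one]
      _ = _ := by rw [← hC]; ring)
  refine ⟨hfin, hcard.trans ?_⟩
  have hr : Units.rank K + 1 ≤ 2 := by
    have h1 := InfinitePlace.card_add_two_mul_card_eq_rank K
    have h2 := InfinitePlace.card_eq_nrRealPlaces_add_nrComplexPlaces (K := K)
    rw [Units.rank]
    omega
  calc 3 ^ T.card * Nat.card {c : ClassGroup (𝓞 K) // c ^ 3 = 1} * 3 ^ (Units.rank K + 1)
      ≤ 3 ^ (4 * (S.card + 2)) * Nat.card {c : ClassGroup (𝓞 K) // c ^ 3 = 1} * 3 ^ 2 :=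
        Nat.mul_le_mul (Nat.mul_le_mul_right _ (Nat.pow_le_pow_right (by norm_num) hTc'))
          (Nat.pow_le_pow_right (by norm_num) hr)
    _ = _ := by rw [pow_mul]; ring

theorem fields_le_of_isSquare (hS : ∀ p ∈ S, p.Prime) {m : ℤ} (hm : m ≠ 0) (hsq : IsSquare m)
    (R : ∀ i, Resolvent (L i) (withSix S) m) (h3 : ∀ i, finrank ℚ (L i) = 3)
    (hne : ∀ i j, Nonempty (L i ≃+* L j) → i = j) :
    Finite ι ∧ Nat.card ι ≤ 9 * 81 ^ (S.card + 2) := by
  obtain ⟨c, rfl⟩ := hsq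
  have hc : (c : ℚ) ≠ 0 := Int.cast_ne_zero.mpr (left_ne_zero_of_mul hm)
  obtain ⟨hfin, h⟩ := fields_le_of_lift (K := ℚ) hS (by simp) (c : ℚ) (by push_cast; ring)
    (cubeLift_rat hc (by push_cast; ring)) R h3 hne
  refine ⟨hfin, h.trans ?_⟩
  have := card_three_torsion_le (K := ℚ)
  rw [Rat.classNumber_eq] at this
  exact (Nat.mul_le_mul_left _ this).trans_eq (mul_one _)

/-- The possible square classes of `-3 d`. -/
def squareClasses (S : Finset ℕ) : Finset ℤ :=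
  ((univ : Finset Bool) ×ˢ (withSix S).powerset).image fun e =>
    (if e.1 then 1 else -1) * ∏ p ∈ e.2, (p : ℤ)

theorem card_squareClasses (S : Finset ℕ) :
    (squareClasses S).card ≤ 2 * 2 ^ (S.card + 2) := by
  refine card_image_le.trans ?_
  rw [card_product, card_univ, Fintype.card_bool, card_powerset]
  exact Nat.mul_le_mul_left _ (Nat.pow_le_pow_right (by norm_num) (card_withSix_le S))

theorem exists_squareClass {d : ℤ}
    (h : ∀ p : ℕ, p.Prime → (p : ℤ) ∣ d → p ∈ S) :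
    ∃ g m : ℤ, -3 * d = g ^ 2 * m ∧ m ∈ squareClasses S := by
  obtain ⟨a, b, hab, ha⟩ := Nat.sq_mul_squarefree (-3 * d).natAbs
  have hsub : a.primeFactors ⊆ withSix S := by
    intro p hp
    have hpp := Nat.prime_of_mem_primeFactors hp
    have h' : p ∣ (-3 * d).natAbs :=
      hab ▸ (Nat.dvd_of_mem_primeFactors hp).mul_left _
    rw [Int.natAbs_mul] at h'
    rcases hpp.dvd_mul.mp h' with h' | h'
    · rw [(Nat.prime_dvd_prime_iff_eq hpp Nat.prime_three).mp h']; simp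
    · exact mem_union_left _ (h p hpp (Int.natCast_dvd.mpr h'))
  have hprod : (∏ p ∈ a.primeFactors, (p : ℤ)) = (a : ℤ) := by
    rw [← Nat.cast_prod, Nat.prod_primeFactors_of_squarefree ha]
  rcases Int.natAbs_eq (-3 * d) with e | e
  · refine ⟨b, a, by rw [e, ← hab]; push_cast; ring,
      mem_image.mpr ⟨(true, a.primeFactors), mem_product.mpr ⟨mem_univ _, mem_powerset.mpr hsub⟩,
        by simp [hprod]⟩⟩
  · refine ⟨b, -a, by rw [e, ← hab]; push_cast; ring,
      mem_image.mpr ⟨(false, a.primeFactors), mem_product.mpr ⟨mem_univ _, mem_powerset.mpr hsub⟩,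
        by simp [hprod]⟩⟩

/-- **Cubic fields ramified in a finite set of primes.** -/
theorem exists_fields_bound_of {θ : ℝ} (hθ : 0 ≤ θ) (hT : TorsionExponent θ) {ε : ℝ}
    (hε : 0 < ε) : ∃ C : ℝ, 0 ≤ C ∧ ∀ (S : Finset ℕ), (∀ p ∈ S, p.Prime) →
    ∀ (ι : Type) (L : ι → Type) [∀ i, Field (L i)] [∀ i, NumberField (L i)],
      (∀ i, finrank ℚ (L i) = 3) →
      (∀ i, ∀ p : ℕ, p.Prime → (p : ℤ) ∣ discr (L i) → p ∈ S) →
      (∀ i j, Nonempty (L i ≃+* L j) → i = j) →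
      Finite ι ∧ (Nat.card ι : ℝ) ≤ C * ((∏ p ∈ S, p : ℕ) : ℝ) ^ (θ + ε) := by
  obtain ⟨A, hA, htors⟩ := hT _ (half_pos hε)
  obtain ⟨B, hB, hpow⟩ := exists_pow_card_le 162 (half_pos hε)
  refine ⟨72 * 81 ^ 2 * B * ((A + 1) * 6 ^ (θ + ε / 2)), by positivity,
    fun S hS ι L _ _ h3 hd hne => ?_⟩
  set P : ℕ := ∏ p ∈ S, p
  have hP : (1 : ℝ) ≤ P := Nat.one_le_cast.mpr (prod_pos fun p hp => (hS p hp).pos)
  choose g m hgm hm using fun i => exists_squareClass (hd i)
  choose R hR using fun i => exists_resolvent (L i) (h3 i) (P := withSix S) (by simp)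
    (fun p hp h => mem_union_left _ (hd i p hp h)) (hgm i)
  have hfib : ∀ M : ℤ, Finite {i // m i = M} ∧ (Nat.card {i // m i = M} : ℝ) ≤
      9 * 81 ^ (S.card + 2) * ((A + 1) * (6 * P : ℝ) ^ (θ + ε / 2)) := by
    intro M
    rcases isEmpty_or_nonempty {i // m i = M} with hE | ⟨i₀, hi₀⟩
    · exact ⟨inferInstance, by simp; positivity⟩
    have hM0 : M ≠ 0 := hi₀ ▸ (R i₀).primes_m.1
    have hMp : ∀ p : ℕ, p.Prime → (p : ℤ) ∣ M → p ∈ withSix S := hi₀ ▸ (R i₀).primes_m.2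
    have hone : 1 ≤ (6 * P : ℝ) ^ (θ + ε / 2) := Real.one_le_rpow (by linarith) (by positivity)
    have key : ∀ h : ℕ, Nat.card {i // m i = M} ≤ 9 * 81 ^ (S.card + 2) * h →
        (h : ℝ) ≤ (A + 1) * (6 * P : ℝ) ^ (θ + ε / 2) →
        (Nat.card {i // m i = M} : ℝ) ≤
          9 * 81 ^ (S.card + 2) * ((A + 1) * (6 * P : ℝ) ^ (θ + ε / 2)) := by
      intro h h1 h2
      exact (Nat.cast_le.mpr h1).trans (by push_cast; gcongr)
    have hne' : ∀ i j : {i // m i = M}, Nonempty (L i.1 ≃+* L j.1) → i = j :=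
      fun i j e => Subtype.ext (hne _ _ e)
    let R' : ∀ i : {i // m i = M}, Resolvent (L i.1) (withSix S) M := fun i => by
      obtain ⟨i, rfl⟩ := i; exact R i
    by_cases hsq : IsSquare M
    · obtain ⟨hfin, hle⟩ :=
        fields_le_of_isSquare hS hM0 hsq R' (fun i => h3 i.1) hne'
      exact ⟨hfin, key 1 (by simpa using hle)
        (by push_cast; exact one_le_mul_of_one_le_of_one_le (by linarith) hone)⟩
    · obtain ⟨K, _, s, hK, hs⟩ := exists_field hsq
      have hsq' : ¬ IsSquare (M : ℚ) := fun h => hsq (Rat.isSquare_intCast_iff.mp h)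
      obtain ⟨hfin, hle⟩ := fields_le_of_lift hS hK.le s (by simpa using hs)
        (cubeLift_quadratic hK hsq' s (by simpa using hs)) R' (fun i => h3 i.1) hne'
      refine ⟨hfin, key _ hle ((htors K M s hK hM0 hsq hs).trans ?_)⟩
      refine mul_le_mul (by linarith) (Real.rpow_le_rpow (Nat.cast_nonneg _) ?_ (by positivity))
        (by positivity) (by linarith)
      exact_mod_cast supportProd_le_six hS hM0 hMp
  haveI : ∀ M : squareClasses S, Finite {i // m i = (M : ℤ)} := fun M => (hfib M).1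
  let e : (Σ M : squareClasses S, {i // m i = (M : ℤ)}) ≃ ι :=
    { toFun := fun x => x.2.1
      invFun := fun i => ⟨⟨m i, hm i⟩, i, rfl⟩
      left_inv := fun x => Sigma.subtype_ext (Subtype.ext x.2.2) rfl
      right_inv := fun i => rfl }
  refine ⟨Finite.of_equiv _ e, ?_⟩
  rw [← Nat.card_congr e, Nat.card_sigma, Nat.cast_sum]
  refine (sum_le_card_nsmul (univ : Finset (squareClasses S))
    (fun M => (Nat.card {i // m i = (M : ℤ)} : ℝ)) _ fun M _ => (hfib (M : ℤ)).2).trans ?_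
  rw [card_univ, Fintype.card_coe, nsmul_eq_mul]
  have hc : ((squareClasses S).card : ℝ) ≤ 2 * 2 ^ (S.card + 2) := by
    exact_mod_cast card_squareClasses S
  refine (mul_le_mul_of_nonneg_right hc (by positivity)).trans ?_
  have hp := hpow S hS
  push_cast at hp
  have e1 : (P : ℝ) ^ (θ + ε) = (P : ℝ) ^ (ε / 2) * (P : ℝ) ^ (θ + ε / 2) := by
    rw [← Real.rpow_add (by linarith)]; ring_nf
  rw [Real.mul_rpow (by norm_num) (Nat.cast_nonneg _), e1]
  calc 2 * (2 : ℝ) ^ (S.card + 2) *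
        (9 * 81 ^ (S.card + 2) * ((A + 1) * ((6 : ℝ) ^ (θ + ε / 2) * (P : ℝ) ^ (θ + ε / 2))))
      = 72 * 81 ^ 2 * (162 : ℝ) ^ S.card * ((A + 1) * (6 : ℝ) ^ (θ + ε / 2)) *
          (P : ℝ) ^ (θ + ε / 2) := by
        rw [show (162 : ℝ) = 2 * 81 by norm_num, mul_pow, pow_add, pow_add]; ring
    _ ≤ 72 * 81 ^ 2 * (B * (P : ℝ) ^ (ε / 2)) * ((A + 1) * (6 : ℝ) ^ (θ + ε / 2)) *
          (P : ℝ) ^ (θ + ε / 2) := by
        gcongr
        simpa [P] using hp
    _ = _ := by ring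

end FA.CubicFieldsBound
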