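import Fermat.Agent.BrumerSilverman.Descent
import Fermat.Agent.BrumerSilverman.Points
import Fermat.Agent.CubicFields.Fields

/-!
# The descent element of a cubic field

A cubic field of discriminant `d` is generated by a root `τ` of `t³ - 3 h t + T` with
`T² - 9 (g a)² m = 4 h³`, `-3 d = g² m`. If the elements `4 (T + 3 g a √m)` of two such fields agree
up to cubes, a root of one cubic is a rational expression in a root of the other.
-/

set_option autoImplicit false
set_option linter.style.haveILetI false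

noncomputable section

open NumberField Module
open FA.Thue FA.DeloneFaddeev FA.MordellAverage
open scoped Classical IntermediateField

namespace FA.CubicFieldsBound

/-- A generator of a cubic field with its descent data. -/
structure Resolvent (L : Type) [Field L] [NumberField L] (P : Finset ℕ) (m : ℤ) where
  /-- The Hessian. -/
  h : ℤ
  /-- The covariant. -/
  T : ℤ
  /-- The leading coefficient. -/
  a : ℤ
  /-- The square part of `-3 d`. -/
  g : ℤ
  /-- The generator. -/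
  τ : L
  hh : h ≠ 0
  root : τ ^ 3 - 3 * (h : L) * τ + (T : L) = 0
  irrat : ∀ q : ℚ, (q : L) ≠ τ
  norm_eq : T ^ 2 - 9 * (g * a) ^ 2 * m = 4 * h ^ 3
  primes_g : g ≠ 0 ∧ ∀ p : ℕ, p.Prime → (p : ℤ) ∣ g → p ∈ P
  primes_m : m ≠ 0 ∧ ∀ p : ℕ, p.Prime → (p : ℤ) ∣ m → p ∈ P
  primes_gcd : ∀ p : ℕ, p.Prime → (p : ℤ) ∣ a → (p : ℤ) ∣ h → p ∈ P

variable {L L' : Type} [Field L] [NumberField L] [Field L'] [NumberField L'] {P : Finset ℕ}
  {m : ℤ}

/-- The descent element. -/
def Resolvent.val (R : Resolvent L P m) : SqAlg (m : ℚ) :=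
  ratS (m : ℚ) (4 * R.T) + ratS (m : ℚ) (12 * (R.g * R.a)) * sRoot (m : ℚ)

theorem Resolvent.sqNorm_val (R : Resolvent L P m) :
    sqNorm R.val = (4 * (R.h : ℚ)) ^ 3 := by
  have h := congrArg (fun z : ℤ => (z : ℚ)) R.norm_eq
  push_cast at h
  simp [sqNorm, Resolvent.val]
  linear_combination 16 * h

theorem natDegree_minpoly (hL : finrank ℚ L = 3) {τ : L} (hτ : ∀ q : ℚ, (q : L) ≠ τ) :
    ℚ⟮τ⟯ = ⊤ ∧ (minpoly ℚ τ).natDegree = 3 := by
  have hint : IsIntegral ℚ τ := IsIntegral.of_finite ℚ τ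
  have h1 : (minpoly ℚ τ).natDegree ≠ 1 := fun h => by
    obtain ⟨q, hq⟩ := minpoly.natDegree_eq_one_iff.mp h
    exact hτ q (by rw [← hq, eq_ratCast])
  have hdeg : (minpoly ℚ τ).natDegree = 3 := by
    have hd := hL ▸ minpoly.degree_dvd hint
    rcases (Nat.dvd_prime Nat.prime_three).mp hd with h | h
    · exact absurd h h1
    · exact h
  refine ⟨IntermediateField.eq_of_le_of_finrank_eq le_top ?_, hdeg⟩
  rw [IntermediateField.adjoin.finrank hint, hdeg, IntermediateField.finrank_top', hL]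

theorem Resolvent.minpoly_eq (R : Resolvent L P m) (hL : finrank ℚ L = 3) :
    minpoly ℚ R.τ = Polynomial.X ^ 3 - Polynomial.C (3 * (R.h : ℚ)) * Polynomial.X +
      Polynomial.C (R.T : ℚ) := by
  set p : Polynomial ℚ := Polynomial.X ^ 3 - Polynomial.C (3 * (R.h : ℚ)) * Polynomial.X +
    Polynomial.C (R.T : ℚ)
  have hp : p.Monic := by simp only [p]; monicity!
  have hdeg : p.natDegree = 3 := by simp only [p]; compute_degree!
  have hroot : Polynomial.aeval R.τ p = 0 := by
    simp only [p, map_add, map_sub, map_mul, map_pow, Polynomial.aeval_X, Polynomial.aeval_C,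
      eq_ratCast]
    push_cast
    linear_combination R.root
  refine (minpoly.eq_of_irreducible_of_monic ?_ hroot hp).symm
  have hint : IsIntegral ℚ R.τ := IsIntegral.of_finite ℚ _
  have hmd := Polynomial.eq_of_monic_of_dvd_of_natDegree_le (minpoly.monic hint) hp
    (minpoly.dvd ℚ _ hroot) (by rw [hdeg, (natDegree_minpoly hL R.irrat).2])
  rw [hmd]
  exact minpoly.irreducible hint

theorem Resolvent.sq_ne (R : Resolvent L P m) (hL : finrank ℚ L = 3) :
    R.τ ^ 2 - (R.h : L) ≠ 0 := by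
  intro e
  have hle := Polynomial.natDegree_le_of_dvd (minpoly.dvd ℚ R.τ
    (p := Polynomial.X ^ 2 - Polynomial.C (R.h : ℚ)) (by simp [e]))
    (Polynomial.X_pow_sub_C_ne_zero two_pos _)
  rw [(natDegree_minpoly hL R.irrat).2, Polynomial.natDegree_X_pow_sub_C] at hle
  omega

/-- **The transferred root.** -/
theorem exists_root_transfer (R : Resolvent L P m) (hL : finrank ℚ L = 3) {h' T' : ℤ}
    (w : SqAlg (m : ℚ)) (hh : (h' : ℚ) = (R.h : ℚ) * sqNorm w)
    (hT : (4 * (T' : ℚ)) = (R.val * w ^ 3).re) :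
    ∃ σ : L, σ ^ 3 - 3 * (h' : L) * σ + (T' : L) = 0 := by
  set τ := R.τ
  set hL' : L := (R.h : L)
  set G : L := 3 * (R.a : L) * (R.g : L)
  set μ : L := (m : L)
  set w0 : L := (w.re : L)
  set w1 : L := (w.im : L)
  have he : τ ^ 2 - hL' ≠ 0 := R.sq_ne hL
  set X : L := -(G * μ) / (τ ^ 2 - hL')
  have r3 : X * (τ ^ 2 - hL') + G * μ = 0 := by
    simp only [X]; rw [div_mul_cancel₀ _ he]; ring
  have r1 := R.root
  have hn := congrArg (fun z : ℤ => (z : L)) R.norm_eq
  push_cast at hn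
  have r2 : X ^ 2 - μ * (τ ^ 2 - 4 * hL') = 0 := by
    refine mul_right_cancel₀ (pow_ne_zero 2 he) ?_
    linear_combination (X * (τ ^ 2 - hL') - G * μ) * r3 -
      μ * (τ ^ 3 - 3 * hL' * τ - (R.T : L)) * r1 - μ * hn
  have e1 : (h' : L) = hL' * (w0 ^ 2 - μ * w1 ^ 2) := by
    have := congrArg (fun q : ℚ => (q : L)) hh
    simp only [sqNorm] at this
    push_cast at this
    exact this
  have e2 : 4 * (T' : L) = 4 * (R.T : L) * (w0 ^ 3 + 3 * μ * w0 * w1 ^ 2) +
      4 * G * μ * (3 * w0 ^ 2 * w1 + μ * w1 ^ 3) := by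
    have hT' : 4 * (T' : ℚ) = 4 * (R.T : ℚ) * (w.re ^ 3 + 3 * m * w.re * w.im ^ 2) +
        4 * (3 * R.a * R.g) * m * (3 * w.re ^ 2 * w.im + m * w.im ^ 3) := by
      rw [hT]
      simp [Resolvent.val, pow_succ]
      ring
    have := congrArg (fun q : ℚ => (q : L)) hT'
    push_cast at this
    linear_combination this
  refine ⟨w0 * τ + w1 * X, mul_left_cancel₀ (by norm_num : (4 : L) ≠ 0) ?_⟩
  rw [e1]
  linear_combination e2 + 4 * w0 ^ 3 * r1 + 4 * 3 * w0 ^ 2 * w1 * r3 +
    4 * 3 * w0 * w1 ^ 2 * (τ * r2 + μ * r1) + 4 * w1 ^ 3 * (X * r2 + μ * r3)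

/-- **Elements equal up to cubes: isomorphic fields.** -/
theorem nonempty_ringEquiv (R : Resolvent L P m) (R' : Resolvent L' P m) (hL : finrank ℚ L = 3)
    (hL' : finrank ℚ L' = 3) (w : SqAlg (m : ℚ)) (e : R'.val = R.val * w ^ 3) :
    Nonempty (L' ≃+* L) := by
  have hh : (R'.h : ℚ) = (R.h : ℚ) * sqNorm w := by
    have h := congrArg sqNorm e
    rw [sqNorm_mul, sqNorm_pow, R.sqNorm_val, R'.sqNorm_val] at h
    have : (4 * (R'.h : ℚ)) = 4 * (R.h : ℚ) * sqNorm w :=
      (Odd.strictMono_pow (by decide : Odd 3)).injective (h.trans (mul_pow _ _ _).symm)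
    linarith
  obtain ⟨σ, hσ⟩ := exists_root_transfer R hL (T' := R'.T) w hh
    (by rw [← e]; simp [Resolvent.val])
  have htop := (natDegree_minpoly hL' R'.irrat).1
  have hint : IsIntegral ℚ R'.τ := IsIntegral.of_finite ℚ _
  have hroot : Polynomial.aeval σ (minpoly ℚ
      (IntermediateField.adjoin.powerBasis hint).gen) = 0 := by
    rw [IntermediateField.adjoin.powerBasis_gen,
      ← minpoly.algebraMap_eq (algebraMap ℚ⟮R'.τ⟯ L').injective,
      IntermediateField.AdjoinSimple.algebraMap_gen, R'.minpoly_eq hL']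
    simp only [map_add, map_sub, map_mul, map_pow, Polynomial.aeval_X, Polynomial.aeval_C,
      eq_ratCast]
    push_cast
    linear_combination hσ
  let φ : ℚ⟮R'.τ⟯ →ₐ[ℚ] L := (IntermediateField.adjoin.powerBasis hint).lift σ hroot
  let ψ : L' →ₐ[ℚ] L :=
    φ.comp ((IntermediateField.equivOfEq htop).trans IntermediateField.topEquiv).symm.toAlgHom
  have hinj : Function.Injective ψ := ψ.toRingHom.injective
  have hsurj : Function.Surjective ψ := (LinearMap.injective_iff_surjective_of_finrank_eq_finrank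
    (f := ψ.toLinearMap) (by rw [hL, hL'])).mp hinj
  exact ⟨(AlgEquiv.ofBijective ψ ⟨hinj, hsurj⟩).toRingEquiv⟩

/-- **Every cubic field has descent data.** -/
theorem exists_resolvent (L : Type) [Field L] [NumberField L] (hL : finrank ℚ L = 3)
    {P : Finset ℕ} (h3 : 3 ∈ P) (hP : ∀ p : ℕ, p.Prime → (p : ℤ) ∣ discr L → p ∈ P)
    {g m : ℤ} (hgm : -3 * discr L = g ^ 2 * m) :
    ∃ R : Resolvent L P m, R.g = g := by
  obtain ⟨F₀, ⟨e₀⟩⟩ := CubicFields.exists_form_of_field L hL
  obtain ⟨-, -, hd₀⟩ := CubicFields.maxForms_of_ringOfIntegers e₀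
  have hD : F₀.disc ≠ 0 := hd₀ ▸ discr_ne_zero L
  obtain ⟨M, hM, hMh⟩ : ∃ M : Matrix (Fin 2) (Fin 2) ℤ, IsUnit M.det ∧
      F₀.hess (M 0 0) (M 1 0) ≠ 0 := by
    by_contra hcon
    push Not at hcon
    have e1 := hcon !![1, 0; 0, 1] (by simp [Matrix.det_fin_two])
    have e2 := hcon !![0, -1; 1, 0] (by simp [Matrix.det_fin_two])
    have e3 := hcon !![1, 0; 1, 1] (by simp [Matrix.det_fin_two])
    simp [CubicForm.hess] at e1 e2 e3
    refine hD (mul_left_cancel₀ (show (3 : ℤ) ≠ 0 by norm_num) ?_)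
    have eQ : F₀.b * F₀.c - 9 * F₀.a * F₀.d = 0 := by linear_combination e3 - e1 - e2
    simp only [CubicForm.disc]
    linear_combination 4 * (F₀.c ^ 2 - 3 * F₀.b * F₀.d) * e1 -
      (F₀.b * F₀.c - 9 * F₀.a * F₀.d) * eQ
  set F := scale M.det (actMat F₀ M)
  have hh : F.b ^ 2 - 3 * F.a * F.c ≠ 0 := by
    have he := isUnit_mul_self hM
    have h := F₀.hess_act (R := ℤ) (M 0 0) (M 0 1) (M 1 0) (M 1 1) 1 0
    simp only [Int.cast_id, mul_one, mul_zero, add_zero, ← Matrix.det_fin_two] at h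
    have hsq : M.det ^ 2 * M.det ^ 2 = 1 := by linear_combination (M.det * M.det + 1) * he
    have e : F.b ^ 2 - 3 * F.a * F.c = F₀.hess (M 0 0) (M 1 0) := calc
      F.b ^ 2 - 3 * F.a * F.c =
          M.det ^ 2 * (F₀.act (M 0 0) (M 0 1) (M 1 0) (M 1 1)).hess (1 : ℤ) 0 := by
        simp [F, scale, actMat, CubicForm.hess]; ring
      _ = M.det ^ 2 * M.det ^ 2 * F₀.hess (M 0 0) (M 1 0) := by rw [h]; ring
      _ = F₀.hess (M 0 0) (M 1 0) := by rw [hsq, one_mul]
    rwa [e]
  obtain ⟨ef⟩ := (CubicOrder.nonempty_ringEquiv_iff F F₀).mpr (by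
    exact ⟨M, hM, rfl⟩)
  let e := ef.trans e₀
  obtain ⟨-, hani, hd⟩ := CubicFields.maxForms_of_ringOfIntegers e
  set W : 𝓞 L := e (CubicOrder.omega F)
  set T := 2 * F.b ^ 3 - 9 * F.a * F.b * F.c + 27 * F.a ^ 2 * F.d
  have hrel : CubicOrder.omega F ^ 3 - (F.b : CubicOrder F) * CubicOrder.omega F ^ 2 +
      (F.a : CubicOrder F) * (F.c : CubicOrder F) * CubicOrder.omega F -
      (F.a : CubicOrder F) ^ 2 * (F.d : CubicOrder F) = 0 := by
    ext <;> simp [CubicOrder.omega, pow_succ, sub_eq_add_neg] <;> ring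
  have hW : (W : L) ^ 3 - (F.b : L) * (W : L) ^ 2 + (F.a : L) * (F.c : L) * (W : L) -
      (F.a : L) ^ 2 * (F.d : L) = 0 := by
    have := congrArg (fun x => ((e x : 𝓞 L) : L)) hrel
    simpa [W] using this
  have hm0 : m ≠ 0 := by
    rintro rfl
    exact discr_ne_zero L (by simpa using hgm)
  have hg0 : g ≠ 0 := by
    rintro rfl
    exact discr_ne_zero L (by simpa using hgm)
  have hprime : ∀ p : ℕ, p.Prime → (p : ℤ) ∣ g ^ 2 * m → p ∈ P := by
    intro p hp hdvd
    rw [← hgm, neg_mul, dvd_neg] at hdvd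
    rcases (Nat.prime_iff_prime_int.1 hp).dvd_mul.mp hdvd with h | h
    · rwa [(Nat.prime_dvd_prime_iff_eq hp Nat.prime_three).mp (Int.natCast_dvd_natCast.mp h)]
    · exact hP p hp h
  refine ⟨{ h := F.b ^ 2 - 3 * F.a * F.c
            T := T
            a := F.a
            g := g
            τ := (F.b : L) - 3 * (W : L)
            hh := hh
            root := ?_
            irrat := ?_
            norm_eq := ?_
            primes_g := ⟨hg0, fun p hp h => hprime p hp ((dvd_pow h two_ne_zero).mul_right m)⟩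
            primes_m := ⟨hm0, fun p hp h => hprime p hp (h.mul_left _)⟩
            primes_gcd := ?_ }, rfl⟩
  · simp only [T]
    push_cast
    linear_combination -27 * hW
  · intro q hq
    have h3 : (W : L) = (((F.b : ℚ) - q) / 3 : ℚ) := by push_cast; linear_combination hq / 3
    have hi : IsIntegral ℤ (((F.b : ℚ) - q) / 3) := by
      refine (isIntegral_algebraMap_iff (algebraMap ℚ L).injective).mp ?_
      rw [eq_ratCast, ← h3]
      exact RingOfIntegers.isIntegral_coe W
    obtain ⟨z, hz⟩ := IsIntegrallyClosed.isIntegral_iff.mp hi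
    have hWz : W = ((z : ℤ) : 𝓞 L) := RingOfIntegers.ext (by rw [h3, ← hz]; simp)
    have := congrArg CubicOrder.cw (e.injective (hWz.trans (map_intCast e z).symm))
    simp [CubicOrder.omega] at this
  · have hs := F.syzygy
    rw [hd] at hs
    simp only [T]
    linear_combination -hs + 9 * F.a ^ 2 * hgm
  · intro p hp ha hb
    refine hP p hp ?_
    rw [← hd]
    have hpp : Prime (p : ℤ) := Nat.prime_iff_prime_int.1 hp
    have hbb : (p : ℤ) ∣ F.b := hpp.dvd_of_dvd_pow (n := 2) (by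
      have := dvd_add hb ((ha.mul_left 3).mul_right F.c)
      simpa using this)
    obtain ⟨α, hα⟩ := ha
    obtain ⟨β, hβ⟩ := hbb
    refine ⟨(p : ℤ) * β ^ 2 * F.c ^ 2 - 4 * α * F.c ^ 3 - 4 * (p : ℤ) ^ 2 * β ^ 3 * F.d -
      27 * (p : ℤ) * α ^ 2 * F.d ^ 2 + 18 * (p : ℤ) * α * β * F.c * F.d, ?_⟩
    simp only [CubicForm.disc, hα, hβ]
    ring

end FA.CubicFieldsBound
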